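/-
Existence of Frobenius elements in the absolute Galois group of the rationals, in the form used by
the prelude (`ValuationSubring.LiesOverPrime`, `ValuationSubring.IsFrobeniusAt`).

Main results (all in `namespace Fermat.Agent.S54.FrobExists`):
* `exists_integral_div`: every element of a valuation subring `V` of a characteristic-zero field
  which is algebraic over the integers is a quotient `b / s` of algebraic integers with
  `V.valuation s = 1`.
* `exists_integral_sub_lt`: residue classes are represented by algebraic integers.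
* `mem_decompositionSubgroup_of_smul_centerIdeal_eq`: stabiliser of the center is contained in the
  decomposition group.
* `exists_isFrobeniusAt_of_isGalois`, `exists_isFrobeniusAt`: existence of Frobenius elements.
-/
import Mathlib
import Fermat.Prelude.Def_EllipticCurve_FrobeniusTrace

set_option autoImplicit false

namespace Fermat.Agent.S54.FrobExists

open Polynomial

section Horner

variable {L : Type*} [Field L]

/-- Horner-type partial sums, defined by upward recursion using `x⁻¹`. -/
noncomputable def hornerU (a : ℕ → L) (x : L) : ℕ → L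
  | 0 => 0
  | k + 1 => (hornerU a x k - a k) * x⁻¹

theorem hornerU_zero (a : ℕ → L) (x : L) : hornerU a x 0 = 0 := rfl

theorem hornerU_succ (a : ℕ → L) (x : L) (k : ℕ) :
    hornerU a x (k + 1) = (hornerU a x k - a k) * x⁻¹ := rfl

theorem hornerU_mul_pow (a : ℕ → L) {x : L} (hx : x ≠ 0) (k : ℕ) :
    hornerU a x k * x ^ k = - ∑ i ∈ Finset.range k, a i * x ^ i := by
  induction k with
  | zero => simp [hornerU_zero]
  | succ k ih =>
    rw [Finset.sum_range_succ, neg_add, ← ih, hornerU_succ]
    field_simp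
    ring

theorem hornerU_eq_add (a : ℕ → L) {x : L} (hx : x ≠ 0) (k : ℕ) :
    hornerU a x k = a k + x * hornerU a x (k + 1) := by
  rw [hornerU_succ]
  field_simp
  ring

theorem hornerU_mem_of_inv_mem (a : ℕ → L) (x : L) (W : Subring L) (ha : ∀ i, a i ∈ W)
    (hx : x⁻¹ ∈ W) (k : ℕ) : hornerU a x k ∈ W := by
  induction k with
  | zero => rw [hornerU_zero]; exact W.zero_mem
  | succ k ih => rw [hornerU_succ]; exact W.mul_mem (W.sub_mem ih (ha k)) hx

theorem hornerU_mem_of_mem (a : ℕ → L) {x : L} (hx0 : x ≠ 0) (W : Subring L) (ha : ∀ i, a i ∈ W)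
    (hx : x ∈ W) (n : ℕ) (hn : ∀ k, n ≤ k → hornerU a x k = 0) (k : ℕ) : hornerU a x k ∈ W := by
  by_cases hk : n ≤ k
  · rw [hn k hk]; exact W.zero_mem
  · obtain ⟨m, rfl⟩ : ∃ m, n = k + m := ⟨n - k, by omega⟩
    clear hk
    induction m generalizing k with
    | zero => rw [hn k (by omega)]; exact W.zero_mem
    | succ m ih =>
      rw [hornerU_eq_add a hx0 k]
      refine W.add_mem (ha k) (W.mul_mem hx (ih (k + 1) ?_))
      intro j hj
      exact hn j (by omega)

/-- The coefficient sequence of an integer polynomial, cast into `L`. -/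
noncomputable def coeffSeq (p : ℤ[X]) : ℕ → L := fun i => ((p.coeff i : ℤ) : L)

theorem hornerU_coeffSeq_eq_zero {x : L} (hx : x ≠ 0) (p : ℤ[X]) (hp : aeval x p = 0) (k : ℕ)
    (hk : p.natDegree < k) : hornerU (coeffSeq p) x k = 0 := by
  have h := hornerU_mul_pow (coeffSeq p) hx k
  have h2 : ∑ i ∈ Finset.range k, coeffSeq p i * x ^ i = aeval x p := by
    rw [aeval_eq_sum_range' hk]
    refine Finset.sum_congr rfl fun i _ => ?_
    simp [coeffSeq, zsmul_eq_mul]
  rw [h2, hp, neg_zero] at h
  exact (mul_eq_zero.mp h).resolve_right (pow_ne_zero k hx)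

theorem integral_mem_valuationSubring (V : ValuationSubring L) {b : L} (hb : IsIntegral ℤ b) :
    b ∈ V := by
  have h1 : IsIntegral V b := hb.tower_top
  obtain ⟨y, hy⟩ := IsIntegrallyClosed.isIntegral_iff.mp h1
  rw [← hy]
  exact y.2

theorem intCast_mem_valuationSubring (V : ValuationSubring L) (n : ℤ) : (n : L) ∈ V :=
  intCast_mem V n

/-- All the Horner partial sums of an integer polynomial vanishing at `x` are integral. -/
theorem isIntegral_hornerU {x : L} (hx : x ≠ 0) (p : ℤ[X]) (hp : aeval x p = 0) (k : ℕ) :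
    IsIntegral ℤ (hornerU (coeffSeq p) x k) := by
  by_contra hcon
  set R : Subring L := (integralClosure ℤ L).toSubring with hR
  have hnot : hornerU (coeffSeq p) x k ∉ R := fun h => hcon h
  have : IsIntegrallyClosedIn R L := inferInstanceAs (IsIntegrallyClosedIn (integralClosure ℤ L) L)
  obtain ⟨W, -, hW⟩ := Subring.exists_le_valuationSubring_of_isIntegrallyClosedIn hnot
  apply hW
  have ha : ∀ i, coeffSeq p i ∈ W.toSubring := fun i => intCast_mem W _
  rcases W.mem_or_inv_mem x with h | h
  · exact hornerU_mem_of_mem _ hx W.toSubring ha h (p.natDegree + 1)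
      (fun j hj => hornerU_coeffSeq_eq_zero hx p hp j (by omega)) k
  · exact hornerU_mem_of_inv_mem _ x W.toSubring ha h k


/-- Key lemma: every element of a valuation subring of a field algebraic over `ℤ`-polynomials is a
quotient of two algebraic integers whose denominator is a unit of the valuation subring. -/
theorem exists_integral_div [CharZero L] (V : ValuationSubring L) {x : L} (hxalg : IsAlgebraic ℤ x)
    (hx : x ∈ V) :
    ∃ b s : L, IsIntegral ℤ b ∧ IsIntegral ℤ s ∧ V.valuation s = 1 ∧ x = b / s := by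
  rcases eq_or_ne x 0 with rfl | hx0
  · exact ⟨0, 1, isIntegral_zero, isIntegral_one, by simp, by simp⟩
  obtain ⟨p0, hp0, hp0x⟩ := hxalg
  have hpx : aeval x p0.primPart = 0 := aeval_primPart_eq_zero hp0 hp0x
  have hprim : p0.primPart.IsPrimitive := isPrimitive_primPart p0
  set p := p0.primPart with hp_def
  have hu_int : ∀ k, IsIntegral ℤ (hornerU (coeffSeq p) x k) := isIntegral_hornerU hx0 p hpx
  have hu_mem : ∀ k, hornerU (coeffSeq p) x k ∈ V :=
    fun k => integral_mem_valuationSubring V (hu_int k)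
  have hvx : V.valuation x ≤ 1 := (V.valuation_le_one_iff x).mpr hx
  -- some partial sum is a unit of `V`
  have hex : ∃ r, ¬ V.valuation (hornerU (coeffSeq p) x r) < 1 := by
    by_contra hall
    push Not at hall
    have hcoef : ∀ i, V.valuation (coeffSeq p i : L) < 1 := by
      intro i
      have h1 : (coeffSeq p i : L) =
          hornerU (coeffSeq p) x i - x * hornerU (coeffSeq p) x (i + 1) := by
        rw [hornerU_eq_add (coeffSeq p) hx0 i]; ring
      rw [h1]
      refine Valuation.map_sub_lt _ (hall i) ?_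
      rw [map_mul]
      exact Right.mul_lt_one_of_le_of_lt hvx (hall (i + 1))
    -- the contraction of the maximal ideal to `ℤ`
    let I : Ideal ℤ := (IsLocalRing.maximalIdeal V).comap (algebraMap ℤ V)
    have hI : I ≠ ⊤ := (Ideal.comap_isPrime (algebraMap ℤ V) (IsLocalRing.maximalIdeal V)).ne_top
    have hmem : ∀ i, p.coeff i ∈ I := by
      intro i
      show algebraMap ℤ V (p.coeff i) ∈ IsLocalRing.maximalIdeal V
      rw [V.valuation_lt_one_iff]
      have h2 : ((algebraMap ℤ V (p.coeff i) : V) : L) = coeffSeq p i := by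
        simp [coeffSeq]
      rw [h2]
      exact hcoef i
    have hgen : I = Ideal.span {Submodule.IsPrincipal.generator I} :=
      (Ideal.span_singleton_generator I).symm
    have hdvd : C (Submodule.IsPrincipal.generator I) ∣ p := by
      rw [C_dvd_iff_dvd_coeff]
      intro i
      have := hmem i
      rw [hgen, Ideal.mem_span_singleton] at this
      exact this
    have hunit : IsUnit (Submodule.IsPrincipal.generator I) := hprim _ hdvd
    apply hI
    rw [hgen]
    exact Ideal.span_singleton_eq_top.mpr hunit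
  obtain ⟨r, hr⟩ := hex
  have hr1 : V.valuation (hornerU (coeffSeq p) x r) = 1 :=
    le_antisymm ((V.valuation_le_one_iff _).mpr (hu_mem r)) (not_lt.mp hr)
  cases r with
  | zero =>
    rw [hornerU_zero, map_zero] at hr1
    exact absurd hr1 zero_ne_one
  | succ r =>
    have hs0 : hornerU (coeffSeq p) x (r + 1) ≠ 0 := by
      intro h0
      rw [h0, map_zero] at hr1
      exact zero_ne_one hr1
    refine ⟨hornerU (coeffSeq p) x r - coeffSeq p r, hornerU (coeffSeq p) x (r + 1), ?_, hu_int _,
      hr1, ?_⟩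
    · exact (hu_int r).sub (isIntegral_intCast _)
    · rw [eq_div_iff hs0, hornerU_succ]
      field_simp

end Horner


section Center

variable {L : Type*} [Field L]

/-- The inclusion of the ring of algebraic integers of `L` into a valuation subring. -/
noncomputable def inclInt (V : ValuationSubring L) : integralClosure ℤ L →+* V :=
  (algebraMap (integralClosure ℤ L) L).codRestrict V.toSubring
    (fun b => integral_mem_valuationSubring V b.2)

@[simp]
theorem coe_inclInt (V : ValuationSubring L) (b : integralClosure ℤ L) :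
    ((inclInt V b : V) : L) = (b : L) := rfl

/-- The center of a valuation subring on the ring of algebraic integers. -/
noncomputable def centerIdeal (V : ValuationSubring L) : Ideal (integralClosure ℤ L) :=
  (IsLocalRing.maximalIdeal V).comap (inclInt V)

theorem mem_centerIdeal_iff (V : ValuationSubring L) (b : integralClosure ℤ L) :
    b ∈ centerIdeal V ↔ V.valuation (b : L) < 1 := by
  show inclInt V b ∈ IsLocalRing.maximalIdeal V ↔ _
  rw [V.valuation_lt_one_iff, coe_inclInt]

instance centerIdeal_isPrime (V : ValuationSubring L) : (centerIdeal V).IsPrime :=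
  Ideal.comap_isPrime (inclInt V) (IsLocalRing.maximalIdeal V)

theorem valuation_eq_one_of_not_mem_centerIdeal (V : ValuationSubring L)
    {b : integralClosure ℤ L} (hb : b ∉ centerIdeal V) : V.valuation (b : L) = 1 := by
  rw [mem_centerIdeal_iff, not_lt] at hb
  exact le_antisymm ((V.valuation_le_one_iff _).mpr (integral_mem_valuationSubring V b.2)) hb

theorem under_centerIdeal_eq (V : ValuationSubring L) {ℓ : ℕ} (hℓ : ℓ.Prime)
    (hV : V.valuation (ℓ : L) < 1) :
    (centerIdeal V).under ℤ = Ideal.span {(ℓ : ℤ)} := by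
  have hmax : (Ideal.span {(ℓ : ℤ)}).IsMaximal :=
    PrincipalIdealRing.isMaximal_of_irreducible
      (Nat.prime_iff_prime_int.mp hℓ).irreducible
  have hle : Ideal.span {(ℓ : ℤ)} ≤ (centerIdeal V).under ℤ := by
    rw [Ideal.span_singleton_le_iff_mem, Ideal.under_def, Ideal.mem_comap, mem_centerIdeal_iff]
    simpa using hV
  have hne : (centerIdeal V).under ℤ ≠ ⊤ :=
    (Ideal.IsPrime.under ℤ (centerIdeal V)).ne_top
  exact (hmax.eq_of_le hne hle).symm

theorem centerIdeal_isMaximal (V : ValuationSubring L) {ℓ : ℕ} (hℓ : ℓ.Prime)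
    (hV : V.valuation (ℓ : L) < 1) : (centerIdeal V).IsMaximal := by
  apply Ideal.isMaximal_of_isIntegral_of_isMaximal_comap (R := ℤ)
  have h := under_centerIdeal_eq V hℓ hV
  rw [Ideal.under_def] at h
  rw [h]
  exact PrincipalIdealRing.isMaximal_of_irreducible
      (Nat.prime_iff_prime_int.mp hℓ).irreducible

/-- Every element of a valuation subring of positive residue characteristic is congruent to an
algebraic integer modulo the maximal ideal. -/
theorem exists_integral_sub_lt [CharZero L] (halg : ∀ x : L, IsAlgebraic ℤ x)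
    (V : ValuationSubring L) {ℓ : ℕ} (hℓ : ℓ.Prime) (hV : V.valuation (ℓ : L) < 1) {x : L}
    (hx : x ∈ V) : ∃ c : integralClosure ℤ L, V.valuation (x - (c : L)) < 1 := by
  obtain ⟨b, s, hb, hs, hvs, rfl⟩ := exists_integral_div V (halg x) hx
  have hs0 : s ≠ 0 := by
    intro h0
    rw [h0, map_zero] at hvs
    exact zero_ne_one hvs
  have hsQ : (⟨s, hs⟩ : integralClosure ℤ L) ∉ centerIdeal V := by
    rw [mem_centerIdeal_iff, hvs]
    exact lt_irrefl _
  obtain ⟨t, i, hi, hti⟩ := (centerIdeal_isMaximal V hℓ hV).exists_inv hsQ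
  refine ⟨⟨b, hb⟩ * t, ?_⟩
  have hi' : V.valuation (i : L) < 1 := (mem_centerIdeal_iff V i).mp hi
  have hti' : (t : L) * s + (i : L) = 1 := by
    have := congrArg (fun z : integralClosure ℤ L => (z : L)) hti
    simpa using this
  have hkey : b / s - ((⟨b, hb⟩ * t : integralClosure ℤ L) : L) = (b / s) * (i : L) := by
    have : ((⟨b, hb⟩ * t : integralClosure ℤ L) : L) = b * (t : L) := rfl
    rw [this]
    have h1 : (i : L) = 1 - (t : L) * s := by rw [← hti']; ring
    rw [h1]
    field_simp
  rw [hkey, map_mul]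
  exact Right.mul_lt_one_of_le_of_lt ((V.valuation_le_one_iff _).mpr hx) hi'

end Center


section Galois

open scoped Pointwise

variable {K L : Type*} [Field K] [Field L] [Algebra K L]

/-- An automorphism stabilising the center of `V` on the algebraic integers maps `V` into `V`. -/
theorem apply_mem_of_smul_centerIdeal_eq [CharZero L] (halg : ∀ x : L, IsAlgebraic ℤ x)
    (V : ValuationSubring L) (τ : L ≃ₐ[K] L) (hτ : τ • centerIdeal V = centerIdeal V) {x : L}
    (hx : x ∈ V) : τ x ∈ V := by
  obtain ⟨b, s, hb, hs, hvs, rfl⟩ := exists_integral_div V (halg x) hx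
  have hsQ : (⟨s, hs⟩ : integralClosure ℤ L) ∉ centerIdeal V := by
    rw [mem_centerIdeal_iff, hvs]
    exact lt_irrefl _
  have hτs : τ • (⟨s, hs⟩ : integralClosure ℤ L) ∉ centerIdeal V := by
    intro h
    rw [← hτ, Ideal.smul_mem_pointwise_smul_iff] at h
    exact hsQ h
  have h1 : V.valuation (τ s) = 1 := valuation_eq_one_of_not_mem_centerIdeal V hτs
  have h2 : V.valuation (τ b) ≤ 1 := by
    rw [V.valuation_le_one_iff]
    exact integral_mem_valuationSubring V (hb.map τ.toAlgHom.toIntAlgHom)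
  rw [map_div₀, ← V.valuation_le_one_iff, map_div₀, h1, div_one]
  exact h2

theorem mem_decompositionSubgroup_of_smul_centerIdeal_eq [CharZero L]
    (halg : ∀ x : L, IsAlgebraic ℤ x) (V : ValuationSubring L) (σ : L ≃ₐ[K] L)
    (hσ : σ • centerIdeal V = centerIdeal V) : σ ∈ V.decompositionSubgroup K := by
  have hσ' : σ⁻¹ • centerIdeal V = centerIdeal V := by
    rw [inv_smul_eq_iff, hσ]
  show σ • V = V
  ext x
  rw [ValuationSubring.mem_pointwise_smul_iff_inv_smul_mem]
  constructor
  · intro h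
    have := apply_mem_of_smul_centerIdeal_eq halg V σ hσ h
    simpa using this
  · intro h
    exact apply_mem_of_smul_centerIdeal_eq halg V σ⁻¹ hσ' h

end Galois


section Frobenius

open scoped Pointwise

/-- The Frobenius automorphism of the residue field `B ⧸ Q` as an algebra automorphism. -/
theorem exists_frobenius_algEquiv {B : Type*} [CommRing B] (Q : Ideal B) [Q.IsMaximal]
    [Algebra.IsIntegral ℤ B] (ℓ : ℕ) (hℓ : ℓ.Prime) [Q.LiesOver (Ideal.span {(ℓ : ℤ)})] :
    ∃ e : (B ⧸ Q) ≃ₐ[ℤ ⧸ Ideal.span {(ℓ : ℤ)}] (B ⧸ Q), ∀ y, e y = y ^ ℓ := by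
  have : Fact ℓ.Prime := ⟨hℓ⟩
  have hPmax : (Ideal.span {(ℓ : ℤ)}).IsMaximal :=
    PrincipalIdealRing.isMaximal_of_irreducible (Nat.prime_iff_prime_int.mp hℓ).irreducible
  let _ : Field (ℤ ⧸ Ideal.span {(ℓ : ℤ)}) := Ideal.Quotient.field _
  let _ : Field (B ⧸ Q) := Ideal.Quotient.field Q
  have : Finite (ℤ ⧸ Ideal.span {(ℓ : ℤ)}) :=
    Finite.of_equiv (ZMod ℓ) (Int.quotientSpanNatEquivZMod ℓ).symm.toEquiv
  have : Algebra.IsAlgebraic (ℤ ⧸ Ideal.span {(ℓ : ℤ)}) (B ⧸ Q) :=
    Algebra.IsIntegral.isAlgebraic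
  have : PerfectField (B ⧸ Q) := Algebra.IsAlgebraic.perfectField (ℤ ⧸ Ideal.span {(ℓ : ℤ)})
  have hℓQ : ((ℓ : ℕ) : B ⧸ Q) = 0 := by
    have h1 : ((ℓ : ℤ) : B) ∈ Q := by
      have : (ℓ : ℤ) ∈ Q.under ℤ := by
        rw [← Ideal.LiesOver.over (p := Ideal.span {(ℓ : ℤ)}) (P := Q)]
        exact Ideal.subset_span rfl
      simpa [Ideal.under_def] using this
    have h2 : Ideal.Quotient.mk Q ((ℓ : ℤ) : B) = 0 := Ideal.Quotient.eq_zero_iff_mem.mpr h1
    simpa using h2
  have : CharP (B ⧸ Q) ℓ := (CharP.charP_iff_prime_eq_zero hℓ).mpr hℓQ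
  have : PerfectRing (B ⧸ Q) ℓ := PerfectField.toPerfectRing ℓ
  refine ⟨AlgEquiv.ofRingEquiv (f := frobeniusEquiv (B ⧸ Q) ℓ) ?_, fun y => ?_⟩
  · intro a
    obtain ⟨n, rfl⟩ := Ideal.Quotient.mk_surjective a
    rw [Ideal.Quotient.algebraMap_mk_of_liesOver]
    simp
  · simp [frobeniusEquiv_apply, frobenius_def]

theorem exists_valuationSubring_lt {L : Type*} [Field L] [CharZero L] (ℓ : ℕ) (hℓ : ℓ.Prime) :
    ∃ V : ValuationSubring L, V.valuation (ℓ : L) < 1 := by
  let A : Subring L := (Int.castRingHom L).range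
  let I : Ideal A := Ideal.span {⟨(ℓ : L), ⟨(ℓ : ℤ), by simp⟩⟩}
  have hI : I ≠ ⊤ := by
    intro h
    rw [Ideal.eq_top_iff_one, Ideal.mem_span_singleton'] at h
    obtain ⟨⟨a, n, rfl⟩, ha⟩ := h
    have h1 : ((n * (ℓ : ℤ) : ℤ) : L) = ((1 : ℤ) : L) := by
      have := congrArg (fun z : A => (z : L)) ha
      simpa using this
    have h2 : n * (ℓ : ℤ) = 1 := Int.cast_injective h1
    have h3 : (ℓ : ℤ) ∣ 1 := Dvd.intro_left n h2
    have h4 : (ℓ : ℤ) = 1 ∨ (ℓ : ℤ) = -1 := Int.isUnit_iff.mp (isUnit_of_dvd_one h3)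
    have := hℓ.one_lt
    omega
  obtain ⟨V, -, hV⟩ := Ideal.image_subset_nonunits_valuationSubring I hI
  refine ⟨V, ?_⟩
  rw [← ValuationSubring.mem_nonunits_iff]
  exact hV ⟨_, Ideal.subset_span rfl, rfl⟩

universe u

/-- Existence of Frobenius elements: for a Galois extension `L` of `ℚ` and every prime `ℓ`
there is a valuation subring of `L` over `ℓ` together with a Frobenius element. -/
theorem exists_isFrobeniusAt_of_isGalois {L : Type u} [Field L] [CharZero L] [Algebra ℚ L]
    [IsGalois ℚ L] (ℓ : ℕ) (hℓ : ℓ.Prime) :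
    ∃ V : ValuationSubring L, V.LiesOverPrime ℓ ∧
      ∃ σ : L ≃ₐ[ℚ] L, V.IsFrobeniusAt (K := ℚ) σ ℓ := by
  have halg : ∀ x : L, IsAlgebraic ℤ x := fun x =>
    (IsFractionRing.isAlgebraic_iff ℤ ℚ L).mpr (Algebra.IsAlgebraic.isAlgebraic x)
  obtain ⟨V, hV⟩ := exists_valuationSubring_lt (L := L) ℓ hℓ
  refine ⟨V, (V.mem_nonunits_iff).mpr hV, ?_⟩
  have hQmax : (centerIdeal V).IsMaximal := centerIdeal_isMaximal V hℓ hV
  have hlies : (centerIdeal V).LiesOver (Ideal.span {(ℓ : ℤ)}) :=
    ⟨(under_centerIdeal_eq V hℓ hV).symm⟩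
  -- the topology on the ring of algebraic integers
  let _ : TopologicalSpace (integralClosure ℤ L) := ⊥
  have : DiscreteTopology (integralClosure ℤ L) := ⟨rfl⟩
  have : ContinuousSMul (L ≃ₐ[ℚ] L) (integralClosure ℤ L) := by
    rw [continuousSMul_iff_stabilizer_isOpen]
    intro b
    have h : (MulAction.stabilizer (L ≃ₐ[ℚ] L) b : Set (L ≃ₐ[ℚ] L)) =
        (MulAction.stabilizer (L ≃ₐ[ℚ] L) (b : L) : Set (L ≃ₐ[ℚ] L)) := by
      ext g
      simp [MulAction.mem_stabilizer_iff, Subtype.ext_iff]
    rw [h]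
    exact stabilizer_isOpen_of_isIntegral (b : L)
  have : Algebra.IsInvariant ℤ (integralClosure ℤ L) (L ≃ₐ[ℚ] L) := by
    refine ⟨fun b hb => ?_⟩
    have h1 : (b : L) ∈ IntermediateField.fixedField (⊤ : Subgroup (L ≃ₐ[ℚ] L)) := by
      rintro ⟨g, -⟩
      have := congrArg (fun z : integralClosure ℤ L => (z : L)) (hb g)
      simpa using this
    have h2 : IntermediateField.fixedField (⊤ : Subgroup (L ≃ₐ[ℚ] L)) = ⊥ := by
      rw [← IntermediateField.fixingSubgroup_bot]
      exact InfiniteGalois.fixedField_fixingSubgroup ⊥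
    rw [h2, IntermediateField.mem_bot] at h1
    obtain ⟨q, hq⟩ := h1
    have h3 : IsIntegral ℤ (algebraMap ℚ L q) := hq ▸ b.2
    rw [isIntegral_algebraMap_iff (algebraMap ℚ L).injective] at h3
    obtain ⟨n, hn⟩ := IsIntegrallyClosed.isIntegral_iff.mp h3
    refine ⟨n, Subtype.ext ?_⟩
    rw [← hq, ← hn]
    simp
  obtain ⟨e, he⟩ := exists_frobenius_algEquiv (centerIdeal V) ℓ hℓ
  obtain ⟨⟨σ, hσ⟩, hσe⟩ := Ideal.Quotient.stabilizerHom_surjective_of_profinite
    (G := L ≃ₐ[ℚ] L) (Ideal.span {(ℓ : ℤ)}) (centerIdeal V) e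
  have hσD : σ ∈ V.decompositionSubgroup ℚ :=
    mem_decompositionSubgroup_of_smul_centerIdeal_eq halg V σ hσ
  refine ⟨σ, hσD, fun y => ?_⟩
  obtain ⟨x, rfl⟩ := IsLocalRing.residue_surjective y
  obtain ⟨c, hc⟩ := exists_integral_sub_lt halg V hℓ hV x.2
  have hxc : IsLocalRing.residue V x = IsLocalRing.residue V (inclInt V c) := by
    rw [← sub_eq_zero, ← map_sub, IsLocalRing.residue_eq_zero_iff, V.valuation_lt_one_iff]
    exact hc
  rw [hxc, ← IsLocalRing.ResidueField.residue_smul, ← map_pow, ← sub_eq_zero, ← map_sub,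
    IsLocalRing.residue_eq_zero_iff, V.valuation_lt_one_iff]
  have h4 : Ideal.Quotient.mk (centerIdeal V) (σ • c) = Ideal.Quotient.mk (centerIdeal V) (c ^ ℓ) := by
    have := DFunLike.congr_fun hσe (Ideal.Quotient.mk (centerIdeal V) c)
    rw [Ideal.Quotient.stabilizerHom_apply, he] at this
    simpa using this
  rw [Ideal.Quotient.eq, mem_centerIdeal_iff] at h4
  exact h4

end Frobenius


section Qbar

theorem isAlgClosure_rat_algebraicClosure : IsAlgClosure ℚ (AlgebraicClosure ℚ) :=
  AlgebraicClosure.instIsAlgClosure ℚ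

theorem isGalois_rat_algebraicClosure : IsGalois ℚ (AlgebraicClosure ℚ) :=
  have := isAlgClosure_rat_algebraicClosure
  inferInstance

/-- Existence of Frobenius elements in the absolute Galois group of `ℚ`, in the form used by the
prelude. -/
theorem exists_isFrobeniusAt (ℓ : ℕ) (hℓ : ℓ.Prime) :
    ∃ A : ValuationSubring (AlgebraicClosure ℚ), A.LiesOverPrime ℓ ∧
      ∃ σ : AlgebraicClosure ℚ ≃ₐ[ℚ] AlgebraicClosure ℚ, A.IsFrobeniusAt σ ℓ :=
  have := isGalois_rat_algebraicClosure
  exists_isFrobeniusAt_of_isGalois ℓ hℓ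

end Qbar

end Fermat.Agent.S54.FrobExists
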