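import Mathlib
import Fermat.Statements.S54

set_option autoImplicit false

namespace Fermat.Agent.S54

open scoped Pointwise
open Polynomial

theorem ratAlg_eq : (DivisionRing.toRatAlgebra : Algebra ℚ (AlgebraicClosure ℚ)) =
    AlgebraicClosure.instAlgebra ℚ :=
  Subsingleton.elim _ _

noncomputable instance instIsAlgClosureRat : IsAlgClosure ℚ (AlgebraicClosure ℚ) := by
  have h : ∀ (a : Algebra ℚ (AlgebraicClosure ℚ)), a = AlgebraicClosure.instAlgebra ℚ →
      ∀ (t : @Module.IsTorsionFree ℚ (AlgebraicClosure ℚ) _ _ a.toModule),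
        @IsAlgClosure ℚ (AlgebraicClosure ℚ) _ _ a t := by
    intro a ha t
    subst ha
    infer_instance
  exact h _ ratAlg_eq _

/-- The algebraic closure of `ℚ`. -/
abbrev Qb : Type := AlgebraicClosure ℚ

/-- The absolute Galois group of `ℚ`. -/
abbrev GQ : Type := AlgebraicClosure ℚ ≃ₐ[ℚ] AlgebraicClosure ℚ

/-- The ring of all algebraic integers. -/
noncomputable abbrev Zb : Subalgebra ℤ Qb := integralClosure ℤ Qb

/-- There is a valuation subring of `ℚ̄` in which a given prime is a non-unit. -/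
theorem exists_valuationSubring_liesOver (ℓ : ℕ) (hℓ : ℓ.Prime) :
    ∃ A : ValuationSubring Qb, A.LiesOverPrime ℓ := by
  let R : Subring Qb := ⊥
  have hmem : ((ℓ : ℕ) : Qb) ∈ R := natCast_mem R ℓ
  let I : Ideal R := Ideal.span {⟨(ℓ : Qb), hmem⟩}
  have hI : I ≠ ⊤ := by
    intro h
    rw [Ideal.eq_top_iff_one, Ideal.mem_span_singleton'] at h
    obtain ⟨⟨r, hr⟩, h⟩ := h
    obtain ⟨n, rfl⟩ := Subring.mem_bot.mp hr
    have h1 : ((n : ℤ) : Qb) * (ℓ : Qb) = 1 := congrArg Subtype.val h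
    have h2 : (n * (ℓ : ℤ) : ℤ) = 1 := by
      have : (((n * (ℓ : ℤ) : ℤ)) : Qb) = ((1 : ℤ) : Qb) := by push_cast; exact h1
      exact_mod_cast this
    have h3 : ((ℓ : ℤ)) ∣ 1 := ⟨n, by rw [mul_comm]; exact h2.symm⟩
    have h4 : (ℓ : ℤ) = 1 := Int.eq_one_of_dvd_one (by positivity) h3
    have h5 : ℓ = 1 := by exact_mod_cast h4
    exact hℓ.one_lt.ne' h5
  obtain ⟨B, -, hB⟩ := Ideal.image_subset_nonunits_valuationSubring I hI
  refine ⟨B, ?_⟩
  apply hB
  exact ⟨⟨(ℓ : Qb), hmem⟩, Ideal.subset_span rfl, rfl⟩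

/-- An element lying in every valuation subring of a field is integral over `ℤ`. -/
theorem isIntegral_int_of_forall_mem {K : Type*} [Field K] (z : K)
    (h : ∀ V : ValuationSubring K, z ∈ V) : IsIntegral ℤ z := by
  have h1 : z ∈ (⨅ V : {V : ValuationSubring K // (∅ : Set K) ⊆ V.toSubring}, V.1.toSubring) := by
    rw [Subring.mem_iInf]; intro V; exact h V.1
  rw [iInf_valuationSubring_superset] at h1
  have h2 : IsIntegral (Subring.closure (∅ : Set K)) z := h1
  have h3 : Algebra.IsIntegral ℤ (Subring.closure (∅ : Set K)) := by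
    constructor
    rintro ⟨s, hs⟩
    have hs' : s ∈ (⊥ : Subring K) := by rwa [Subring.closure_empty] at hs
    obtain ⟨n, rfl⟩ := Subring.mem_bot.mp hs'
    have : (⟨(n : K), hs⟩ : Subring.closure (∅ : Set K)) =
        algebraMap ℤ (Subring.closure (∅ : Set K)) n := by
      apply Subtype.ext
      simp
    rw [this]
    exact isIntegral_algebraMap
  exact isIntegral_trans z h2

/-- valuation of an integer is at most one -/
theorem valuation_intCast_le_one {K : Type*} [Field K] (A : ValuationSubring K) (a : ℤ) :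
    A.valuation (a : K) ≤ 1 :=
  (A.valuation_le_one_iff _).mpr (intCast_mem A a)

theorem valuation_intCast_lt_one_of_dvd {K : Type*} [Field K] (A : ValuationSubring K) {ℓ : ℕ}
    (hA : A.valuation (ℓ : K) < 1) {a : ℤ} (h : (ℓ : ℤ) ∣ a) : A.valuation (a : K) < 1 := by
  obtain ⟨k, rfl⟩ := h
  push_cast
  rw [map_mul]
  calc A.valuation (ℓ : K) * A.valuation (k : K) ≤ A.valuation (ℓ : K) * 1 := by
        gcongr
        exact valuation_intCast_le_one A k
    _ < 1 := by rwa [mul_one]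

theorem valuation_intCast_eq_one_of_not_dvd {K : Type*} [Field K] (A : ValuationSubring K) {ℓ : ℕ}
    (hℓ : ℓ.Prime) (hA : A.valuation (ℓ : K) < 1) {a : ℤ} (h : ¬ (ℓ : ℤ) ∣ a) :
    A.valuation (a : K) = 1 := by
  have hcop : IsCoprime (ℓ : ℤ) a :=
    (Nat.prime_iff_prime_int.mp hℓ).coprime_iff_not_dvd.mpr h
  obtain ⟨u, w, huw⟩ := hcop
  refine le_antisymm (valuation_intCast_le_one A a) ?_
  by_contra hlt
  rw [not_le] at hlt
  have h1 : A.valuation ((u * ℓ + w * a : ℤ) : K) < 1 := by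
    push_cast
    refine lt_of_le_of_lt (A.valuation.map_add _ _) (max_lt ?_ ?_)
    · rw [map_mul]
      calc A.valuation (u : K) * A.valuation (ℓ : K) ≤ 1 * A.valuation (ℓ : K) := by
            gcongr
            exact valuation_intCast_le_one A u
        _ < 1 := by rwa [one_mul]
    · rw [map_mul]
      calc A.valuation (w : K) * A.valuation (a : K) ≤ 1 * A.valuation (a : K) := by
            gcongr
            exact valuation_intCast_le_one A w
        _ < 1 := by rwa [one_mul]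
  rw [huw] at h1
  simp at h1

/-- Key lemma: an algebraic element of a valuation ring lying over a rational prime is a quotient
of two algebraic integers with denominator a unit of the valuation ring. -/
theorem exists_integral_div {K : Type*} [Field K] [CharZero K] (A : ValuationSubring K) {ℓ : ℕ}
    (hℓ : ℓ.Prime) (hA : A.valuation (ℓ : K) < 1) {x : K} (hx : x ∈ A) (halg : IsAlgebraic ℤ x) :
    ∃ b c : K, IsIntegral ℤ b ∧ IsIntegral ℤ c ∧ A.valuation b = 1 ∧ x * b = c := by
  have : Fact ℓ.Prime := ⟨hℓ⟩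
  obtain ⟨f, hf0, hfx⟩ := halg
  set g := f.primPart with hg
  have hgx : aeval x g = 0 := aeval_primPart_eq_zero hf0 hfx
  have hgprim : g.IsPrimitive := isPrimitive_primPart f
  set gbar := g.map (Int.castRingHom (ZMod ℓ)) with hgbar
  have hgbar0 : gbar ≠ 0 := by
    intro h0
    have hdvd : C (ℓ : ℤ) ∣ g := by
      rw [C_dvd_iff_dvd_coeff]
      intro i
      have : gbar.coeff i = 0 := by rw [h0, coeff_zero]
      rw [hgbar, coeff_map] at this
      exact (ZMod.intCast_zmod_eq_zero_iff_dvd _ _).mp this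
    have := hgprim _ hdvd
    rw [Int.isUnit_iff] at this
    rcases this with h | h
    · have : ℓ = 1 := by exact_mod_cast h
      exact hℓ.one_lt.ne' this
    · have : (0 : ℤ) ≤ (ℓ : ℤ) := by positivity
      omega
  set j := gbar.natDegree with hj
  set n := g.natDegree with hn
  have hjn : j ≤ n := natDegree_map_le
  have hcoeff_gt : ∀ i, j < i → (ℓ : ℤ) ∣ g.coeff i := by
    intro i hi
    have : gbar.coeff i = 0 := coeff_eq_zero_of_natDegree_lt hi
    rw [hgbar, coeff_map] at this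
    exact (ZMod.intCast_zmod_eq_zero_iff_dvd _ _).mp this
  have hcoeff_j : ¬ (ℓ : ℤ) ∣ g.coeff j := by
    intro hdvd
    have : gbar.coeff j ≠ 0 := by
      rw [hj]; exact leadingCoeff_ne_zero.mpr hgbar0
    apply this
    rw [hgbar, coeff_map]
    exact (ZMod.intCast_zmod_eq_zero_iff_dvd _ _).mpr hdvd
  -- the element b
  set b : K := ∑ i ∈ Finset.Ico j (n + 1), (g.coeff i : K) * x ^ (i - j) with hb
  have hsum : ∑ i ∈ Finset.range (n + 1), (g.coeff i : K) * x ^ i = 0 := by
    have := aeval_eq_sum_range (p := g) x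
    rw [hgx] at this
    rw [this]
    refine Finset.sum_congr rfl fun i _ => ?_
    rw [zsmul_eq_mul]
  have hkey : x ^ j * b = - ∑ i ∈ Finset.range j, (g.coeff i : K) * x ^ i := by
    rw [eq_neg_iff_add_eq_zero, add_comm, ← hsum,
      ← Finset.sum_range_add_sum_Ico _ (Nat.le_succ_of_le hjn)]
    congr 1
    rw [hb, Finset.mul_sum]
    refine Finset.sum_congr rfl fun i hi => ?_
    have hji : j ≤ i := (Finset.mem_Ico.mp hi).1
    rw [mul_left_comm, ← pow_add, Nat.add_sub_cancel' hji]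
  have hvx : A.valuation x ≤ 1 := (A.valuation_le_one_iff _).mpr hx
  have hvb : A.valuation b = 1 := by
    rw [hb, Finset.sum_eq_sum_Ico_succ_bot (Nat.lt_succ_of_le hjn), Nat.sub_self, pow_zero, mul_one]
    have h1 : A.valuation (g.coeff j : K) = 1 :=
      valuation_intCast_eq_one_of_not_dvd A hℓ hA hcoeff_j
    have h2 : A.valuation (∑ i ∈ Finset.Ico (j + 1) (n + 1), (g.coeff i : K) * x ^ (i - j)) < 1 := by
      refine A.valuation.map_sum_lt one_ne_zero fun i hi => ?_
      have hji : j < i := (Finset.mem_Ico.mp hi).1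
      rw [map_mul, map_pow]
      calc A.valuation (g.coeff i : K) * A.valuation x ^ (i - j)
          ≤ A.valuation (g.coeff i : K) * 1 := by
            gcongr
            exact pow_le_one' hvx _
        _ < 1 := by
            rw [mul_one]
            exact valuation_intCast_lt_one_of_dvd A hA (hcoeff_gt i hji)
    rw [A.valuation.map_add_eq_of_lt_left (by rw [h1]; exact h2), h1]
  refine ⟨b, x * b, ?_, ?_, hvb, rfl⟩
  · -- integrality of b
    apply isIntegral_int_of_forall_mem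
    intro V
    rcases V.mem_or_inv_mem x with hxV | hxV
    · rw [hb]
      exact sum_mem fun i _ => mul_mem (intCast_mem V _) (pow_mem hxV _)
    · by_cases hx0 : x = 0
      · rw [hb]
        exact sum_mem fun i _ => mul_mem (intCast_mem V _) (pow_mem (hx0 ▸ zero_mem V) _)
      · have hb' : b = - ∑ i ∈ Finset.range j, (g.coeff i : K) * (x⁻¹) ^ (j - i) := by
          have : b = (x⁻¹) ^ j * (x ^ j * b) := by
            rw [← mul_assoc, ← mul_pow, inv_mul_cancel₀ hx0, one_pow, one_mul]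
          rw [this, hkey, mul_neg, Finset.mul_sum]
          congr 1
          refine Finset.sum_congr rfl fun i hi => ?_
          have hij : i < j := Finset.mem_range.mp hi
          rw [mul_left_comm]
          congr 1
          have : j = (j - i) + i := by omega
          conv_lhs => rw [this, pow_add, mul_assoc, ← mul_pow, inv_mul_cancel₀ hx0, one_pow, mul_one]
        rw [hb']
        exact neg_mem (sum_mem fun i _ => mul_mem (intCast_mem V _) (pow_mem hxV _))
  · -- integrality of c = x * b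
    apply isIntegral_int_of_forall_mem
    intro V
    rcases V.mem_or_inv_mem x with hxV | hxV
    · refine mul_mem hxV ?_
      rw [hb]
      exact sum_mem fun i _ => mul_mem (intCast_mem V _) (pow_mem hxV _)
    · by_cases hx0 : x = 0
      · rw [hx0, zero_mul]; exact zero_mem V
      · have hc' : x * b = - ∑ i ∈ Finset.range j, (g.coeff i : K) * (x⁻¹) ^ (j - (i + 1)) := by
          have : x * b = x * (x⁻¹) ^ j * (x ^ j * b) := by
            rw [mul_assoc, ← mul_assoc _ (x ^ j), ← mul_pow, inv_mul_cancel₀ hx0, one_pow, one_mul]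
          rw [this, hkey, mul_neg, Finset.mul_sum]
          congr 1
          refine Finset.sum_congr rfl fun i hi => ?_
          have hij : i < j := Finset.mem_range.mp hi
          rw [mul_left_comm]
          congr 1
          have : j = (j - (i + 1)) + (i + 1) := by omega
          conv_lhs => rw [this]
          rw [pow_add]
          calc x * (x⁻¹ ^ (j - (i + 1)) * x⁻¹ ^ (i + 1)) * x ^ i
              = x⁻¹ ^ (j - (i + 1)) * (x⁻¹ ^ (i + 1) * x ^ (i + 1)) := by
                rw [pow_succ x i]; ring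
            _ = x⁻¹ ^ (j - (i + 1)) := by
                rw [← mul_pow, inv_mul_cancel₀ hx0, one_pow, mul_one]
        rw [hc']
        exact neg_mem (sum_mem fun i _ => mul_mem (intCast_mem V _) (pow_mem hxV _))

/-- integral elements lie in every valuation subring -/
theorem mem_valuationSubring_of_isIntegral {K : Type*} [Field K] (A : ValuationSubring K) {x : K}
    (hx : IsIntegral ℤ x) : x ∈ A := by
  have h1 : IsIntegral A x := hx.tower_top
  obtain ⟨y, hy⟩ := IsIntegrallyClosed.isIntegral_iff.mp h1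
  rw [← hy]
  exact y.2

/-- the discrete topology on the ring of algebraic integers -/
instance instTopZb : TopologicalSpace Zb := ⊥

instance instDiscZb : DiscreteTopology Zb := ⟨rfl⟩

instance instContSMulZb : ContinuousSMul GQ Zb := by
  rw [continuousSMul_iff_stabilizer_isOpen]
  intro b
  have : (MulAction.stabilizer GQ b : Set GQ) = (MulAction.stabilizer GQ (b : Qb) : Set GQ) := by
    ext g
    simp only [SetLike.mem_coe, MulAction.mem_stabilizer_iff]
    rw [Subtype.ext_iff]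
    rfl
  rw [this]
  exact stabilizer_isOpen_of_isIntegral (K := ℚ) (b : Qb)

instance instIsInvariantZb : Algebra.IsInvariant ℤ Zb GQ := by
  constructor
  intro b hb
  have h1 : (b : Qb) ∈ (⊥ : IntermediateField ℚ Qb) := by
    rw [InfiniteGalois.mem_bot_iff_fixed]
    intro g
    have := hb g
    rw [Subtype.ext_iff] at this
    exact this
  obtain ⟨q, hq⟩ := IntermediateField.mem_bot.mp h1
  have h2 : IsIntegral ℤ (algebraMap ℚ Qb q) := by rw [hq]; exact b.2
  rw [isIntegral_algebraMap_iff (algebraMap ℚ Qb).injective] at h2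
  obtain ⟨n, hn⟩ := IsIntegrallyClosed.isIntegral_iff.mp h2
  refine ⟨n, ?_⟩
  apply Subtype.ext
  rw [← hq, ← hn]
  simp

/-- every element of `ℚ̄` is algebraic over `ℤ` -/
theorem isAlgebraic_int (x : Qb) : IsAlgebraic ℤ x := by
  have h : IsAlgebraic ℚ x := Algebra.IsAlgebraic.isAlgebraic x
  exact (IsFractionRing.isAlgebraic_iff ℤ ℚ Qb).mpr h

/-- The prime of `ℤ̄` cut out by a valuation subring. -/
noncomputable def primeOf (A : ValuationSubring Qb) : Ideal Zb where
  carrier := {y | A.valuation (y : Qb) < 1}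
  add_mem' := by
    intro a b ha hb
    exact lt_of_le_of_lt (A.valuation.map_add _ _) (max_lt ha hb)
  zero_mem' := by simp
  smul_mem' := by
    intro c x hx
    simp only [Set.mem_ofPred_eq, smul_eq_mul, Subalgebra.coe_mul, map_mul] at hx ⊢
    calc A.valuation (c : Qb) * A.valuation (x : Qb) ≤ 1 * A.valuation (x : Qb) := by
          gcongr
          exact (A.valuation_le_one_iff _).mpr (mem_valuationSubring_of_isIntegral A c.2)
      _ < 1 := by rwa [one_mul]

theorem mem_primeOf (A : ValuationSubring Qb) (y : Zb) :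
    y ∈ primeOf A ↔ A.valuation (y : Qb) < 1 := Iff.rfl

instance primeOf_isPrime (A : ValuationSubring Qb) : (primeOf A).IsPrime := by
  constructor
  · intro h
    have : (1 : Zb) ∈ primeOf A := by rw [h]; trivial
    rw [mem_primeOf] at this
    simp at this
  · intro x y hxy
    rw [mem_primeOf] at hxy
    simp only [Subalgebra.coe_mul, map_mul] at hxy
    by_contra hcon
    rw [not_or] at hcon
    simp only [mem_primeOf, not_lt] at hcon
    have hx1 : A.valuation (x : Qb) = 1 := le_antisymm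
      ((A.valuation_le_one_iff _).mpr (mem_valuationSubring_of_isIntegral A x.2)) hcon.1
    have hy1 : A.valuation (y : Qb) = 1 := le_antisymm
      ((A.valuation_le_one_iff _).mpr (mem_valuationSubring_of_isIntegral A y.2)) hcon.2
    rw [hx1, hy1, one_mul] at hxy
    exact lt_irrefl _ hxy

theorem primeOf_liesOver (A : ValuationSubring Qb) {ℓ : ℕ} (hℓ : ℓ.Prime)
    (hA : A.LiesOverPrime ℓ) : (primeOf A).LiesOver (Ideal.span {(ℓ : ℤ)}) := by
  constructor
  have hmax : (Ideal.span {(ℓ : ℤ)}).IsMaximal :=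
    PrincipalIdealRing.isMaximal_of_irreducible
      (Nat.prime_iff_prime_int.mp hℓ).irreducible
  have hle : Ideal.span {(ℓ : ℤ)} ≤ (primeOf A).under ℤ := by
    rw [Ideal.span_le, Set.singleton_subset_iff]
    show algebraMap ℤ Zb (ℓ : ℤ) ∈ primeOf A
    rw [mem_primeOf]
    have : ((algebraMap ℤ Zb (ℓ : ℤ) : Zb) : Qb) = (ℓ : Qb) := by simp
    rw [this]
    exact A.mem_nonunits_iff.mp hA
  have hne : (primeOf A).under ℤ ≠ ⊤ := by
    have : ((primeOf A).under ℤ).IsPrime := inferInstance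
    exact this.ne_top
  exact hmax.eq_of_le hne hle

/-- The Frobenius automorphism of `ℤ̄ / Q`. -/
theorem exists_frobenius_lift (A : ValuationSubring Qb) {ℓ : ℕ} (hℓ : ℓ.Prime)
    (hA : A.LiesOverPrime ℓ) :
    ∃ σ : GQ, σ • primeOf A = primeOf A ∧
      ∀ y : Zb, A.valuation ((σ • y : Zb) - (y : Qb) ^ ℓ : Qb) < 1 := by
  have hlo := primeOf_liesOver A hℓ hA
  set Q := primeOf A with hQ
  set P : Ideal ℤ := Ideal.span {(ℓ : ℤ)} with hP
  have hsurj := Ideal.Quotient.stabilizerHom_surjective_of_profinite (G := GQ) P Q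
  -- the characteristic
  have hℓQ : ((ℓ : ℕ) : Zb ⧸ Q) = 0 := by
    have : ((ℓ : ℕ) : Zb ⧸ Q) = Ideal.Quotient.mk Q ((ℓ : ℕ) : Zb) := by simp
    rw [this, Ideal.Quotient.eq_zero_iff_mem, hQ, mem_primeOf]
    have : (((ℓ : ℕ) : Zb) : Qb) = (ℓ : Qb) := by simp
    rw [this]
    exact A.mem_nonunits_iff.mp hA
  have hchar : CharP (Zb ⧸ Q) ℓ := ringChar.of_eq (CharP.ringChar_of_prime_eq_zero hℓ hℓQ)
  have : Fact ℓ.Prime := ⟨hℓ⟩
  -- Frobenius is bijective
  have hinj : Function.Injective (frobenius (Zb ⧸ Q) ℓ) := frobenius_inj _ _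
  have hsur : Function.Surjective (frobenius (Zb ⧸ Q) ℓ) := by
    intro y
    obtain ⟨y, rfl⟩ := Ideal.Quotient.mk_surjective y
    obtain ⟨z, hz⟩ := IsAlgClosed.exists_pow_nat_eq (y : Qb) hℓ.pos
    have hzint : IsIntegral ℤ z := by
      apply IsIntegral.of_pow hℓ.pos
      rw [hz]
      exact y.2
    refine ⟨Ideal.Quotient.mk Q ⟨z, hzint⟩, ?_⟩
    rw [frobenius_def, ← map_pow]
    congr 1
    apply Subtype.ext
    simpa using hz
  let e : (Zb ⧸ Q) ≃+* (Zb ⧸ Q) := RingEquiv.ofBijective (frobenius (Zb ⧸ Q) ℓ) ⟨hinj, hsur⟩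
  have hcomm : ∀ a : ℤ ⧸ P, e (algebraMap (ℤ ⧸ P) (Zb ⧸ Q) a) = algebraMap (ℤ ⧸ P) (Zb ⧸ Q) a := by
    intro a
    obtain ⟨a, rfl⟩ := Ideal.Quotient.mk_surjective a
    show frobenius (Zb ⧸ Q) ℓ _ = _
    rw [frobenius_def, ← map_pow]
    congr 1
    rw [← map_pow, Ideal.Quotient.eq, hP, Ideal.mem_span_singleton]
    have h1 : ((a ^ ℓ - a : ℤ) : ZMod ℓ) = 0 := by
      push_cast
      rw [ZMod.pow_card, sub_self]
    exact (ZMod.intCast_zmod_eq_zero_iff_dvd _ _).mp h1
  let σ₀ : (Zb ⧸ Q) ≃ₐ[ℤ ⧸ P] (Zb ⧸ Q) := AlgEquiv.ofRingEquiv (f := e) hcomm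
  obtain ⟨⟨σ, hσ⟩, hσ₀⟩ := hsurj σ₀
  refine ⟨σ, hσ, fun y => ?_⟩
  have h1 : Ideal.Quotient.stabilizerHom Q P GQ ⟨σ, hσ⟩ (Ideal.Quotient.mk Q y) =
      σ₀ (Ideal.Quotient.mk Q y) := by rw [hσ₀]
  rw [Ideal.Quotient.stabilizerHom_apply] at h1
  have h2 : σ₀ (Ideal.Quotient.mk Q y) = Ideal.Quotient.mk Q (y ^ ℓ) := by
    have : σ₀ (Ideal.Quotient.mk Q y) = frobenius (Zb ⧸ Q) ℓ (Ideal.Quotient.mk Q y) := rfl
    rw [this, frobenius_def, map_pow]
  rw [h2] at h1
  have h3 : (σ • y - y ^ ℓ : Zb) ∈ Q := Ideal.Quotient.eq.mp h1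
  rw [hQ, mem_primeOf] at h3
  simpa using h3

/-- An automorphism stabilising the prime below a valuation ring maps the valuation ring
into itself. -/
theorem apply_mem_of_smul_primeOf_eq (A : ValuationSubring Qb) {ℓ : ℕ} (hℓ : ℓ.Prime)
    (hA : A.LiesOverPrime ℓ) (τ : GQ) (hτ : τ • primeOf A = primeOf A) {x : Qb} (hx : x ∈ A) :
    τ x ∈ A := by
  have hvℓ : A.valuation (ℓ : Qb) < 1 := A.mem_nonunits_iff.mp hA
  obtain ⟨b, c, hb, hc, hvb, hxbc⟩ := exists_integral_div A hℓ hvℓ hx (isAlgebraic_int x)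
  have hτb : IsIntegral ℤ (τ b) := hb.map τ.toAlgHom.toRingHom.toIntAlgHom
  have hτc : IsIntegral ℤ (τ c) := hc.map τ.toAlgHom.toRingHom.toIntAlgHom
  have hvτb : A.valuation (τ b) = 1 := by
    refine le_antisymm ((A.valuation_le_one_iff _).mpr (mem_valuationSubring_of_isIntegral A hτb)) ?_
    rw [← not_lt]
    intro hlt
    have h1 : (τ • (⟨b, hb⟩ : Zb)) ∈ primeOf A := by
      rw [mem_primeOf]; exact hlt
    rw [← hτ, Ideal.smul_mem_pointwise_smul_iff, mem_primeOf] at h1
    rw [hvb] at h1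
    exact lt_irrefl _ h1
  rw [← A.valuation_le_one_iff]
  have h2 : τ x * τ b = τ c := by rw [← map_mul, hxbc]
  have h3 : A.valuation (τ x) = A.valuation (τ c) := by
    rw [← h2, map_mul, hvτb, mul_one]
  rw [h3]
  exact (A.valuation_le_one_iff _).mpr (mem_valuationSubring_of_isIntegral A hτc)

theorem mem_decompositionSubgroup_of_smul_primeOf_eq (A : ValuationSubring Qb) {ℓ : ℕ}
    (hℓ : ℓ.Prime) (hA : A.LiesOverPrime ℓ) (σ : GQ) (hσ : σ • primeOf A = primeOf A) :
    σ ∈ A.decompositionSubgroup ℚ := by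
  rw [MulAction.mem_stabilizer_iff]
  have hσ' : σ⁻¹ • primeOf A = primeOf A := by
    conv_lhs => rw [← hσ]
    rw [inv_smul_smul]
  apply le_antisymm
  · intro x hx
    rw [ValuationSubring.mem_pointwise_smul_iff_inv_smul_mem] at hx
    have := apply_mem_of_smul_primeOf_eq A hℓ hA σ hσ hx
    simpa using this
  · intro x hx
    rw [ValuationSubring.mem_pointwise_smul_iff_inv_smul_mem]
    exact apply_mem_of_smul_primeOf_eq A hℓ hA σ⁻¹ hσ' hx

theorem exists_isFrobeniusAt (ℓ : ℕ) (hℓ : ℓ.Prime) :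
    ∃ A : ValuationSubring Qb, A.LiesOverPrime ℓ ∧ ∃ σ : GQ, A.IsFrobeniusAt σ ℓ := by
  obtain ⟨A, hA⟩ := exists_valuationSubring_liesOver ℓ hℓ
  obtain ⟨σ, hσQ, hσ⟩ := exists_frobenius_lift A hℓ hA
  have hvℓ : A.valuation (ℓ : Qb) < 1 := A.mem_nonunits_iff.mp hA
  have hσD := mem_decompositionSubgroup_of_smul_primeOf_eq A hℓ hA σ hσQ
  refine ⟨A, hA, σ, hσD, fun r => ?_⟩
  obtain ⟨x, rfl⟩ := IsLocalRing.residue_surjective r
  rw [← IsLocalRing.ResidueField.residue_smul, ← map_pow]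
  show Ideal.Quotient.mk _ _ = Ideal.Quotient.mk _ _
  rw [Ideal.Quotient.eq, A.valuation_lt_one_iff]
  have hcoe : (((⟨σ, hσD⟩ : A.decompositionSubgroup ℚ) • x - x ^ ℓ : A) : Qb) =
      σ (x : Qb) - (x : Qb) ^ ℓ := rfl
  rw [hcoe]
  obtain ⟨b, c, hb, hc, hvb, hxbc⟩ := exists_integral_div A hℓ hvℓ x.2 (isAlgebraic_int x)
  have h1 := hσ ⟨b, hb⟩
  have h2 := hσ ⟨c, hc⟩
  have hb1 : (((σ • (⟨b, hb⟩ : Zb)) : Zb) : Qb) = σ b := rfl
  have hc1 : (((σ • (⟨c, hc⟩ : Zb)) : Zb) : Qb) = σ c := rfl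
  rw [hb1] at h1
  rw [hc1] at h2
  simp only at h1 h2
  have hvc : A.valuation c ≤ 1 :=
    (A.valuation_le_one_iff _).mpr (mem_valuationSubring_of_isIntegral A hc)
  have hvσb : A.valuation (σ b) = 1 := by
    have : σ b = (σ b - b ^ ℓ) + b ^ ℓ := by ring
    rw [this, add_comm, A.valuation.map_add_eq_of_lt_left, map_pow, hvb, one_pow]
    rw [map_pow, hvb, one_pow]
    exact h1
  have hkey : (σ (x : Qb) - (x : Qb) ^ ℓ) * (σ b * b ^ ℓ) =
      (σ c - c ^ ℓ) * b ^ ℓ - c ^ ℓ * (σ b - b ^ ℓ) := by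
    have e1 : σ (x : Qb) * σ b = σ c := by rw [← map_mul, hxbc]
    have e2 : (x : Qb) ^ ℓ * b ^ ℓ = c ^ ℓ := by rw [← mul_pow, hxbc]
    calc (σ (x : Qb) - (x : Qb) ^ ℓ) * (σ b * b ^ ℓ)
        = (σ (x : Qb) * σ b) * b ^ ℓ - ((x : Qb) ^ ℓ * b ^ ℓ) * σ b := by ring
      _ = σ c * b ^ ℓ - c ^ ℓ * σ b := by rw [e1, e2]
      _ = _ := by ring
  have hv : A.valuation (σ (x : Qb) - (x : Qb) ^ ℓ) =
      A.valuation ((σ c - c ^ ℓ) * b ^ ℓ - c ^ ℓ * (σ b - b ^ ℓ)) := by
    rw [← hkey, map_mul, map_mul, hvσb, map_pow, hvb, one_pow, mul_one, mul_one]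
  rw [hv]
  refine lt_of_le_of_lt (A.valuation.map_sub _ _) (max_lt ?_ ?_)
  · rw [map_mul, map_pow, hvb, one_pow, mul_one]; exact h2
  · rw [map_mul, map_pow]
    calc A.valuation c ^ ℓ * A.valuation (σ b - b ^ ℓ) ≤ 1 * A.valuation (σ b - b ^ ℓ) := by
          gcongr
          exact pow_le_one' hvc _
      _ < 1 := by rwa [one_mul]

end Fermat.Agent.S54
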