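import Fermat.Statements.S54

/-!
S54 (`R ↠ T`), everything except the existence of Frobenius elements, which enters as the
hypothesis `hFrob` of `result_of_frob`.
-/

set_option autoImplicit false

namespace Fermat.Agent.S54

open Polynomial Module

section Trace

variable {A : Type} [CommRing A] [IsLocalRing A]

/-- The trace of a `GaloisRepAdic` only depends on its equivalence class. -/
theorem trace_eq_of_equiv {ρ₁ ρ₂ : GaloisRepAdic A} (e : ρ₁.Equiv ρ₂)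
    (σ : AlgebraicClosure ℚ ≃ₐ[ℚ] AlgebraicClosure ℚ) : ρ₁.trace σ = ρ₂.trace σ := by
  have h : ρ₂.ρ σ = e.toLinearEquiv.conj (ρ₁.ρ σ) := by
    apply LinearMap.ext
    intro y
    rw [LinearEquiv.conj_apply_apply, e.map_apply, LinearEquiv.apply_symm_apply]
  unfold GaloisRepAdic.trace
  rw [h, LinearMap.trace_conj']

/-- Trace commutes with base change of a `GaloisRepAdic`. -/
theorem trace_baseChangeAlong {B : Type} [CommRing B] [IsLocalRing B] (φ : A →+* B)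
    (hφ : IsLocalHom φ) (ρ : GaloisRepAdic A)
    (σ : AlgebraicClosure ℚ ≃ₐ[ℚ] AlgebraicClosure ℚ) :
    (ρ.baseChangeAlong φ hφ).trace σ = φ (ρ.trace σ) := by
  let _ : Algebra A B := φ.toAlgebra
  exact LinearMap.trace_baseChange (ρ.ρ σ) B

/-- Reading off the trace from a monic quadratic characteristic polynomial. -/
theorem trace_eq_of_charpoly_eq {V : Type} [AddCommGroup V] [Module A V] [Module.Free A V]
    [Module.Finite A V] (f : V →ₗ[A] V) (a b : A)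
    (h : LinearMap.charpoly f = X ^ 2 - C a * X + C b) : LinearMap.trace A V f = a := by
  have h1 : LinearMap.trace A V f = -(LinearMap.charpoly f).nextCoeff := by
    rw [LinearMap.trace_eq_matrix_trace A (Module.Free.chooseBasis A V) f,
      Matrix.trace_eq_neg_charpoly_nextCoeff]
    rfl
  have hdeg : (X ^ 2 - C a * X + C b : A[X]).natDegree = 2 := by
    have : (X ^ 2 - C a * X + C b : A[X]) = X ^ 2 + (C (-a) * X + C b) := by
      rw [map_neg]; ring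
    rw [this]
    compute_degree!
  rw [h1, h, nextCoeff_of_natDegree_pos (by rw [hdeg]; norm_num), hdeg]
  simp [coeff_X_pow]

end Trace

section Main

variable {𝒪 : Type} [CommRing 𝒪] [IsDomain 𝒪] [IsDiscreteValuationRing 𝒪]
  [IsAdicComplete (IsLocalRing.maximalIdeal 𝒪) 𝒪]
  {N : ℕ} [NeZero N] {S : Set ℕ}
  {θ : CuspForm.heckeAlgebra N 2 S →+* IsLocalRing.ResidueField 𝒪}
  {T : Type} [CommRing T] [IsLocalRing T] [IsNoetherianRing T]
  [IsAdicComplete (IsLocalRing.maximalIdeal T) T] [Algebra 𝒪 T] [IsLocalHom (algebraMap 𝒪 T)]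
  [Module.Finite 𝒪 T] [Module.Free 𝒪 T]

/-- If `S` contains all primes dividing `N`, the image of the Hecke algebra under a ring
homomorphism lies in any subring containing the images of the `T_ℓ`. -/
theorem range_π_subset (H : CuspForm.HeckeGaloisRepDatum N S 𝒪 θ T)
    (hS : ∀ q : ℕ, q.Prime → q ∣ N → q ∈ S) (R' : Subring T)
    (hT : ∀ (ℓ : ℕ) (hℓ : ℓ.Prime) (hℓN : ¬ ℓ ∣ N) (hℓS : ℓ ∉ S),
      H.π (CuspForm.heckeAlgebra.T hℓ hℓN hℓS) ∈ R') :
    ∀ t : CuspForm.heckeAlgebra N 2 S, H.π t ∈ R' := by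
  rintro ⟨x, hx⟩
  induction hx using Algebra.adjoin_induction with
  | mem x hx =>
    rcases hx with ⟨ℓ, hℓ, hℓN, hℓS, rfl⟩ | ⟨q, hqN, hq, hqS, rfl⟩
    · exact hT ℓ hℓ hℓN hℓS
    · exact absurd (hS q hq hqN) hqS
  | algebraMap r =>
    have : (⟨algebraMap ℤ _ r, Subalgebra.algebraMap_mem _ r⟩ : CuspForm.heckeAlgebra N 2 S) =
        ((r : ℤ) : CuspForm.heckeAlgebra N 2 S) := by
      apply Subtype.ext
      simp
    rw [this, map_intCast]
    exact intCast_mem R' r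
  | add x y hx hy ihx ihy =>
    have : (⟨x + y, Subalgebra.add_mem _ hx hy⟩ : CuspForm.heckeAlgebra N 2 S) =
        ⟨x, hx⟩ + ⟨y, hy⟩ := rfl
    rw [this, map_add]
    exact add_mem ihx ihy
  | mul x y hx hy ihx ihy =>
    have : (⟨x * y, Subalgebra.mul_mem _ hx hy⟩ : CuspForm.heckeAlgebra N 2 S) =
        ⟨x, hx⟩ * ⟨y, hy⟩ := rfl
    rw [this, map_mul]
    exact mul_mem ihx ihy

/-- S54 assuming Frobenius elements exist at every prime. -/
theorem result_of_frob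
    (hFrob : ∀ ℓ : ℕ, ℓ.Prime → ∃ (A : ValuationSubring (AlgebraicClosure ℚ))
      (σ : AlgebraicClosure ℚ ≃ₐ[ℚ] AlgebraicClosure ℚ), A.LiesOverPrime ℓ ∧ A.IsFrobeniusAt σ ℓ)
    {ρbar : ResidualGaloisRep (IsLocalRing.ResidueField 𝒪)}
    {𝒟 : ∀ ⦃A : Type⦄ [CommRing A] [IsLocalRing A] [Algebra 𝒪 A], GaloisRepAdic A → Prop}
    (D : GaloisRep.DeformationRingData 𝒪 ρbar 𝒟)
    (H : CuspForm.HeckeGaloisRepDatum N S 𝒪 θ T)
    (hS : ∀ q : ℕ, q.Prime → q ∣ N → q ∈ S) (h𝒟 : 𝒟 H.ρ)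
    (hres : H.ρ.residual.IsEquiv
      (ρbar.baseChangeAlong (IsLocalRing.ResidueField.map (algebraMap 𝒪 T)))) :
    ∃ φ : D.R →ₐ[𝒪] T, Function.Surjective φ ∧ ∃ hφ : IsLocalHom (φ : D.R →+* T),
      (D.ρ.baseChangeAlong (φ : D.R →+* T) hφ).IsEquiv H.ρ := by
  obtain ⟨φ, ⟨hφ, ⟨e⟩⟩, -⟩ := D.universal T H.residue_surjective H.ρ h𝒟 hres
  refine ⟨φ, ?_, hφ, ⟨e⟩⟩
  have hT : ∀ (ℓ : ℕ) (hℓ : ℓ.Prime) (hℓN : ¬ ℓ ∣ N) (hℓS : ℓ ∉ S),
      H.π (CuspForm.heckeAlgebra.T hℓ hℓN hℓS) ∈ φ.range.toSubring := by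
    intro ℓ hℓ hℓN hℓS
    obtain ⟨A, σ, hA, hσ⟩ := hFrob ℓ hℓ
    have h1 := H.charpoly_frob ℓ hℓ hℓN hℓS A hA σ hσ
    have h2 : H.ρ.trace σ = H.π (CuspForm.heckeAlgebra.T hℓ hℓN hℓS) :=
      trace_eq_of_charpoly_eq _ _ _ h1
    have h3 := trace_eq_of_equiv e σ
    rw [trace_baseChangeAlong] at h3
    rw [← h2, ← h3]
    exact ⟨D.ρ.trace σ, rfl⟩
  have hrange := range_π_subset H hS φ.range.toSubring hT
  have htop : (⊤ : Subalgebra 𝒪 T) ≤ φ.range := by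
    rw [← H.adjoin_range_π]
    apply Algebra.adjoin_le
    rintro _ ⟨t, rfl⟩
    exact hrange t
  intro y
  exact htop (Algebra.mem_top : y ∈ (⊤ : Subalgebra 𝒪 T))

end Main

end Fermat.Agent.S54
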